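import Fermat.Agent.S16.NS.Defs
import Fermat.Agent.S20.Group

/-!
# S16 / NS / Index: the index `psi N = [SL₂(ℤ) : Γ₀(N)]` for `N = p` and `N = 3 p`
(block NS, owner helper8; one worker)

FROZEN statements; replace each `sorry`.  Use `Fermat.Agent.S20.psi_eq_dedekindPsi :
psi N = ModularCurve.dedekindPsi N` and
`ModularCurve.dedekindPsi N = ∑ d ∈ N.divisors with Squarefree d, N / d`
(`Fermat/Prelude/Def_ModularCurve_X0.lean`): the divisors of a prime `p` are `1, p` (both
squarefree), sum `p + 1`; the divisors of `3 p` (`p ≠ 3` prime) are `1, 3, p, 3 p` (all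
squarefree), sum `3 p + p + 3 + 1 = 4 (p + 1)`.
-/

set_option autoImplicit false

namespace Fermat.Agent.S16

open Fermat.Agent.S23 (psi)

namespace IndexAux

theorem dedekindPsi_prime {p : ℕ} (hp : p.Prime) : ModularCurve.dedekindPsi p = p + 1 := by
  unfold ModularCurve.dedekindPsi
  rw [hp.divisors]
  have h1 : ({1, p} : Finset ℕ).filter (fun d => Squarefree d) = {1, p} := by
    apply Finset.filter_true_of_mem
    intro d hd
    rw [Finset.mem_insert, Finset.mem_singleton] at hd
    rcases hd with rfl | rfl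
    · exact squarefree_one
    · exact hp.squarefree
  rw [h1, Finset.sum_pair hp.one_lt.ne, Nat.div_one, Nat.div_self hp.pos]

theorem divisors_three_mul {p : ℕ} (hp : p.Prime) :
    (3 * p).divisors = {1, 3, p, 3 * p} := by
  have h0 : 3 * p ≠ 0 := Nat.mul_ne_zero (by norm_num) hp.ne_zero
  ext d
  simp only [Nat.mem_divisors, Finset.mem_insert, Finset.mem_singleton]
  constructor
  · rintro ⟨hd, -⟩
    obtain ⟨a, b, ha, hb, rfl⟩ := (Nat.dvd_mul).mp hd
    rcases (Nat.dvd_prime Nat.prime_three).mp ha with rfl | rfl <;>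
      rcases (Nat.dvd_prime hp).mp hb with rfl | rfl
    · left; rfl
    · right; right; left; exact one_mul b
    · right; left; rfl
    · right; right; right; rfl
  · rintro (rfl | rfl | rfl | rfl)
    · exact ⟨one_dvd _, h0⟩
    · exact ⟨Dvd.intro p rfl, h0⟩
    · exact ⟨Dvd.intro_left 3 rfl, h0⟩
    · exact ⟨dvd_rfl, h0⟩

theorem dedekindPsi_three_mul_prime {p : ℕ} (hp : p.Prime) (hp3 : p ≠ 3) :
    ModularCurve.dedekindPsi (3 * p) = 4 * (p + 1) := by
  have hcop : Nat.Coprime 3 p := (Nat.coprime_primes Nat.prime_three hp).mpr (Ne.symm hp3)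
  unfold ModularCurve.dedekindPsi
  rw [divisors_three_mul hp]
  have h1 : ({1, 3, p, 3 * p} : Finset ℕ).filter (fun d => Squarefree d) = {1, 3, p, 3 * p} := by
    apply Finset.filter_true_of_mem
    intro d hd
    simp only [Finset.mem_insert, Finset.mem_singleton] at hd
    rcases hd with rfl | rfl | rfl | rfl
    · exact squarefree_one
    · exact Nat.prime_three.squarefree
    · exact hp.squarefree
    · exact (Nat.squarefree_mul_iff).mpr ⟨hcop, Nat.prime_three.squarefree, hp.squarefree⟩
  have hp1 : 1 < p := hp.one_lt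
  have hp0 : 0 < p := hp.pos
  have e13 : (1 : ℕ) ∉ ({3, p, 3 * p} : Finset ℕ) := by
    simp only [Finset.mem_insert, Finset.mem_singleton, not_or]
    refine ⟨by norm_num, by omega, by omega⟩
  have e3 : (3 : ℕ) ∉ ({p, 3 * p} : Finset ℕ) := by
    simp only [Finset.mem_insert, Finset.mem_singleton, not_or]
    refine ⟨Ne.symm hp3, by omega⟩
  have ep : p ≠ 3 * p := by omega
  rw [h1, Finset.sum_insert e13, Finset.sum_insert e3, Finset.sum_pair ep, Nat.div_one,
    Nat.mul_div_cancel_left p (by norm_num : 0 < 3), Nat.mul_div_cancel 3 hp0,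
    Nat.div_self (Nat.mul_pos (by norm_num) hp0)]
  ring

end IndexAux

theorem psi_prime {p : ℕ} (hp : p.Prime) : psi p = p + 1 := by
  have : NeZero p := ⟨hp.ne_zero⟩
  rw [Fermat.Agent.S20.psi_eq_dedekindPsi, IndexAux.dedekindPsi_prime hp]

theorem psi_three_mul_prime {p : ℕ} (hp : p.Prime) (hp3 : p ≠ 3) : psi (3 * p) = 4 * (p + 1) := by
  have : NeZero (3 * p) := ⟨Nat.mul_ne_zero (by norm_num) hp.ne_zero⟩
  rw [Fermat.Agent.S20.psi_eq_dedekindPsi, IndexAux.dedekindPsi_three_mul_prime hp hp3]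

end Fermat.Agent.S16
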