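import Fermat.Agent.S16.NS.Main
import Fermat.Agent.S16.LV1.Iface
import Fermat.Agent.S16.MF.Exp

/-!
# S16 / NS: the norm–Sturm principle, final (hypothesis-free) forms  (owner: helper8)

`norm_sturm` and `norm_sturm_seq` are `norm_sturm_of` and `norm_sturm_seq_of` of `NS/Main.lean` with
(LV1) discharged by `Fermat.Agent.S16.LV1.levelOneSturm`.
-/

set_option autoImplicit false

open UpperHalfPlane ModularForm CongruenceSubgroup
open scoped MatrixGroups ModularForm Manifold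

namespace Fermat.Agent.S16

open Fermat.Agent.S23 (Gam psi)

theorem levelOneSturm_holds : LevelOneSturm := LV1.levelOneSturm

/-- The norm–Sturm principle (see `norm_sturm_of`). -/
theorem norm_sturm {N : ℕ} [NeZero N] {k : ℤ}
    (F : ModularForm (Gam N) k)
    {κ : Type*} [CommRing κ] [IsDomain κ] (V : Subring ℂ) (red : V →+* κ)
    (h : ℕ) (hh : 0 < h) (M : ℕ)
    (hK : (4 : ℤ) ∣ (psi N : ℤ) * k) (hM : (psi N : ℤ) * k < 12 * (M : ℤ))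
    (c₁ : ℂ) (hc₁ : c₁ ≠ 0) (B₁ : PowerSeries V)
    (hB₁ : HasXExp V h (c₁ • (F : ℍ → ℂ)) B₁)
    (hB₁0 : ∀ m < h * M, red (PowerSeries.coeff m B₁) = 0)
    (hB₁1 : PowerSeries.map red B₁ ≠ 0)
    (H : ∀ γ : SL(2, ℤ), γ ∉ CongruenceSubgroup.Gamma0 N →
      ∃ (c : ℂ) (B : PowerSeries V), c ≠ 0 ∧
        HasXExp V h (c • ((F : ℍ → ℂ) ∣[k] γ)) B ∧ PowerSeries.map red B ≠ 0) :
    False :=
  norm_sturm_of levelOneSturm_holds F V red h hh M hK hM c₁ hc₁ B₁ hB₁ hB₁0 hB₁1 H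

/-- The norm–Sturm principle in "sequence" form (see `norm_sturm_seq_of`). -/
theorem norm_sturm_seq {N : ℕ} [NeZero N] {k : ℤ}
    (F : ModularForm (Gam N) k)
    {κ : Type*} [CommRing κ] [IsDomain κ] (V : Subring ℂ) (red : V →+* κ)
    (h : ℕ) (hh : 0 < h) (M : ℕ)
    (hK : (4 : ℤ) ∣ (psi N : ℤ) * k) (hM : (psi N : ℤ) * k < 12 * (M : ℤ))
    (hone : ∃ (c₁ : ℂ) (B : ℕ → V), c₁ ≠ 0 ∧ (∃ m, red (B m) ≠ 0) ∧
      (∀ m < h * M, red (B m) = 0) ∧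
      ∀ z : ℍ, HasSum (fun m : ℕ => (B m : ℂ) *
        Complex.exp (2 * (Real.pi : ℂ) * Complex.I * ((m : ℂ) * (z : ℂ) / (h : ℂ)))) (c₁ * F z))
    (hexp : ∀ γ : SL(2, ℤ), γ ∉ CongruenceSubgroup.Gamma0 N →
      ∃ (c : ℂ) (B : ℕ → V), c ≠ 0 ∧ (∃ m, red (B m) ≠ 0) ∧
      ∀ z : ℍ, HasSum (fun m : ℕ => (B m : ℂ) *
        Complex.exp (2 * (Real.pi : ℂ) * Complex.I * ((m : ℂ) * (z : ℂ) / (h : ℂ))))
        (c * ((F : ℍ → ℂ) ∣[k] γ) z)) :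
    False :=
  norm_sturm_seq_of levelOneSturm_holds F V red h hh M hK hM hone hexp

/-- Conversion of an expansion `HasExp h f B` (shared calculus `MF/Exp.lean`, `B : PowerSeries ℂ`)
with coefficients in the subring `V` into `HasXExp`. -/
theorem hasXExp_of_hasExp {V : Subring ℂ} {h : ℕ} {f : ℍ → ℂ} {B : PowerSeries ℂ}
    (hB : HasExp h f B) (hV : ∀ m, PowerSeries.coeff m B ∈ V) :
    HasXExp V h f (PowerSeries.mk fun m => (⟨PowerSeries.coeff m B, hV m⟩ : V)) := by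
  rw [hasXExp_iff]
  have h1 : PowerSeries.map V.subtype (PowerSeries.mk fun m => (⟨PowerSeries.coeff m B, hV m⟩ : V))
      = B := by
    ext m
    rw [PowerSeries.coeff_map, PowerSeries.coeff_mk]
    rfl
  rw [h1]
  exact hB

/-- The norm–Sturm principle for expansions of the shared calculus `MF/Exp.lean`
(`HasExp h f B`, `B : PowerSeries ℂ` with coefficients in `V`). -/
theorem norm_sturm_exp {N : ℕ} [NeZero N] {k : ℤ}
    (F : ModularForm (Gam N) k)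
    {κ : Type*} [CommRing κ] [IsDomain κ] (V : Subring ℂ) (red : V →+* κ)
    (h : ℕ) (hh : 0 < h) (M : ℕ)
    (hK : (4 : ℤ) ∣ (psi N : ℤ) * k) (hM : (psi N : ℤ) * k < 12 * (M : ℤ))
    (hone : ∃ (c₁ : ℂ) (B : PowerSeries ℂ), c₁ ≠ 0 ∧ HasExp h (c₁ • (F : ℍ → ℂ)) B ∧
      ∃ hV : ∀ m, PowerSeries.coeff m B ∈ V,
        (∃ m, red ⟨PowerSeries.coeff m B, hV m⟩ ≠ 0) ∧
        ∀ m < h * M, red ⟨PowerSeries.coeff m B, hV m⟩ = 0)
    (hexp : ∀ γ : SL(2, ℤ), γ ∉ CongruenceSubgroup.Gamma0 N →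
      ∃ (c : ℂ) (B : PowerSeries ℂ), c ≠ 0 ∧ HasExp h (c • ((F : ℍ → ℂ) ∣[k] γ)) B ∧
      ∃ hV : ∀ m, PowerSeries.coeff m B ∈ V, ∃ m, red ⟨PowerSeries.coeff m B, hV m⟩ ≠ 0) :
    False := by
  have hne : ∀ (B : PowerSeries ℂ) (hV : ∀ m, PowerSeries.coeff m B ∈ V),
      (∃ m, red ⟨PowerSeries.coeff m B, hV m⟩ ≠ 0) →
      PowerSeries.map red (PowerSeries.mk fun m => (⟨PowerSeries.coeff m B, hV m⟩ : V)) ≠ 0 := by
    rintro B hV ⟨m, hm⟩ h0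
    apply hm
    have h1 := congrArg (PowerSeries.coeff m) h0
    rwa [PowerSeries.coeff_map, PowerSeries.coeff_mk, map_zero] at h1
  obtain ⟨c₁, B₁, hc₁, hB₁, hV₁, hB₁1, hB₁0⟩ := hone
  refine norm_sturm F V red h hh M hK hM c₁ hc₁ _ (hasXExp_of_hasExp hB₁ hV₁) ?_
    (hne B₁ hV₁ hB₁1) ?_
  · intro m hm
    rw [PowerSeries.coeff_mk]
    exact hB₁0 m hm
  · intro γ hγ
    obtain ⟨c, B, hc, hB, hV, hB1⟩ := hexp γ hγ
    exact ⟨c, _, hc, hasXExp_of_hasExp hB hV, hne B hV hB1⟩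

end Fermat.Agent.S16
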