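import Fermat.Agent.S16.NS.Defs

/-!
# S16 / NS / Cosets: the conjugates `cj F i` and the norm  (block NS, owner helper8; one worker)

FROZEN statements; replace each `sorry`; helper lemmas in the sub-namespace `CosetsAux`.
`Fermat.Agent.S23`: `Gam N` (coercion of `Γ₀(N)` to `GL(2,ℝ)`), `Quo N = 𝒮ℒ ⧸ (Gam N).subgroupOf 𝒮ℒ`,
`psi N = Nat.card (Quo N)`, `quoEquiv N : Fin (psi N) ≃ Quo N`, `i0 N = (quoEquiv N).symm ⟦1⟧`,
`cj f i = SlashInvariantForm.quotientFunc f (quoEquiv N i)` (`Fermat/Agent/S23/Defs.lean`,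
`Conj.lean`; see the proof of `cj_isBoundedAtImInfty` there for how to unfold: induction on the
quotient, `r = ⟨_, γ, rfl⟩`, `SlashInvariantForm.quotientFunc_mk`, `(mapGL ℝ γ)⁻¹ = mapGL ℝ γ⁻¹`,
and `ModularForm.SL_slash`).

* `exists_slash_of_ne_i0`: `cj F i = F ∣[k] γ⁻¹` for a representative `γ` of the `i`-th coset; if
  `γ⁻¹ ∈ Γ₀(N)` then the coset is the trivial one, i.e. `i = i0 N`.
* `exists_norm`: `Fermat.Agent.S23.exists_esymm F (psi N)`; `Finset.powersetCard_self` (the only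
  subset of `univ` of full cardinality is `univ`; `Finset.card_univ`, `Fintype.card_fin`).
-/

set_option autoImplicit false

open UpperHalfPlane ModularForm CongruenceSubgroup
open scoped MatrixGroups ModularForm Manifold

namespace Fermat.Agent.S16

open Fermat.Agent.S23 (Gam psi cj i0)

theorem exists_slash_of_ne_i0 {N : ℕ} [NeZero N] {k : ℤ} (F : ModularForm (Gam N) k)
    {i : Fin (psi N)} (hi : i ≠ i0 N) :
    ∃ γ : SL(2, ℤ), γ ∉ CongruenceSubgroup.Gamma0 N ∧ cj F i = (F : ℍ → ℂ) ∣[k] γ := by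
  obtain ⟨r, hr⟩ := Quotient.exists_rep (Fermat.Agent.S23.quoEquiv N i)
  obtain ⟨r, γ, rfl⟩ := r
  refine ⟨γ⁻¹, ?_, ?_⟩
  · intro hmem
    apply hi
    have hγ : γ ∈ CongruenceSubgroup.Gamma0 N := by
      have := inv_mem hmem
      rwa [inv_inv] at this
    have h1 : (QuotientGroup.mk (1 : ↥𝒮ℒ) : Fermat.Agent.S23.Quo N) =
        Fermat.Agent.S23.quoEquiv N i := by
      rw [← hr]
      refine QuotientGroup.eq.mpr ?_
      rw [Subgroup.mem_subgroupOf]
      refine ⟨γ, hγ, ?_⟩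
      simp
    unfold Fermat.Agent.S23.i0
    rw [h1, Equiv.symm_apply_apply]
  · unfold Fermat.Agent.S23.cj
    rw [← hr, SlashInvariantForm.quotientFunc_mk]
    have h1 : ((Matrix.SpecialLinearGroup.mapGL ℝ) γ)⁻¹ = Matrix.SpecialLinearGroup.mapGL ℝ γ⁻¹ :=
      (map_inv _ _).symm
    simp only [h1]
    rfl

theorem exists_norm {N : ℕ} [NeZero N] {k : ℤ} (F : ModularForm (Gam N) k) :
    ∃ e : ModularForm 𝒮ℒ ((psi N : ℤ) * k), ∀ z : ℍ, e z = ∏ i : Fin (psi N), cj F i z := by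
  obtain ⟨e, he⟩ := Fermat.Agent.S23.exists_esymm F (psi N)
  refine ⟨e, fun z => ?_⟩
  have h : ∀ n : ℕ, Finset.powersetCard n (Finset.univ : Finset (Fin n)) = {Finset.univ} := by
    intro n
    have h1 := Finset.powersetCard_self (Finset.univ : Finset (Fin n))
    rwa [Finset.card_univ, Fintype.card_fin] at h1
  rw [he z, h, Finset.sum_singleton]

end Fermat.Agent.S16
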