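import Mathlib
import Fermat.Agent.S23.Esymm

/-!
# S16 / NS: definitions for the norm–Sturm principle  (owner: helper8)

* `LevelOneSturm` : the statement (LV1) of the blueprint (level-one Sturm bound modulo an additive
  subgroup `J ⊆ ℂ`, weights divisible by `4`), used as a hypothesis until block LV1 delivers it.
* `HasXExp V h f B` : the function `f : ℍ → ℂ` has the expansion `f z = ∑ B_m x ^ m`,
  `x = exp (2 π i z / h)`, with coefficients `B_m` in the subring `V ⊆ ℂ`.
-/

set_option autoImplicit false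

open UpperHalfPlane ModularForm CongruenceSubgroup
open scoped MatrixGroups ModularForm Manifold

namespace Fermat.Agent.S16

/-- (LV1) Level-one Sturm bound modulo an additive subgroup `J` of `ℂ`: if `G` is a modular form
of level one and weight `K` divisible by `4` whose `q`-coefficients `a_i`, `12 i ≤ K`, lie in `J`,
then all `q`-coefficients of `G` lie in `J`. -/
def LevelOneSturm : Prop :=
  ∀ (K : ℤ) (G : ModularForm 𝒮ℒ K), (4 : ℤ) ∣ K → ∀ J : AddSubgroup ℂ,
    (∀ i : ℕ, 12 * (i : ℤ) ≤ K → (qExpansion 1 G).coeff i ∈ J) →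
      ∀ i : ℕ, (qExpansion 1 G).coeff i ∈ J

/-- `f z = ∑_m B_m x^m` with `x = exp (2 π i z / h)`, for all `z ∈ ℍ`; `B ∈ V⟦X⟧`. -/
def HasXExp (V : Subring ℂ) (h : ℕ) (f : ℍ → ℂ) (B : PowerSeries V) : Prop :=
  ∀ z : ℍ, HasSum
    (fun m : ℕ => ((PowerSeries.coeff m B : V) : ℂ) * Function.Periodic.qParam (h : ℝ) (z : ℂ) ^ m)
    (f z)

end Fermat.Agent.S16
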