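import Fermat.Agent.S16.NS.Defs
import Fermat.Agent.S16.MF.Exp

/-!
# S16 / NS / PSeries: products of `x`-expansions  (block NS, owner helper8)

`HasXExp V h f B` (see `NS/Defs.lean`): `∀ z : ℍ, HasSum (fun m => (B_m : ℂ) * 𝕢 h z ^ m) (f z)`.
It is `HasExp h f (B.map V.subtype)` of the shared calculus `MF/Exp.lean` (`hasXExp_iff`), from
which the product rules are transported.
-/

set_option autoImplicit false

open UpperHalfPlane

namespace Fermat.Agent.S16

variable {V : Subring ℂ} {h : ℕ}

/-- Bridge to the shared expansion calculus. -/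
theorem hasXExp_iff {f : ℍ → ℂ} {B : PowerSeries V} :
    HasXExp V h f B ↔ HasExp h f (PowerSeries.map V.subtype B) := by
  unfold HasXExp HasExp
  simp only [PowerSeries.coeff_map, Subring.coe_subtype]

theorem hasXExp_one (V : Subring ℂ) (h : ℕ) : HasXExp V h (fun _ => (1 : ℂ)) 1 := by
  rw [hasXExp_iff, map_one]
  exact hasExp_one h

theorem HasXExp.mul {f g : ℍ → ℂ} {A B : PowerSeries V} (hf : HasXExp V h f A)
    (hg : HasXExp V h g B) : HasXExp V h (fun z => f z * g z) (A * B) := by
  rw [hasXExp_iff, map_mul]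
  exact (hasXExp_iff.mp hf).mul (hasXExp_iff.mp hg)

theorem hasXExp_prod {ι : Type*} (s : Finset ι) (f : ι → ℍ → ℂ) (B : ι → PowerSeries V)
    (hf : ∀ i ∈ s, HasXExp V h (f i) (B i)) :
    HasXExp V h (fun z => ∏ i ∈ s, f i z) (∏ i ∈ s, B i) := by
  rw [hasXExp_iff, map_prod]
  have h1 := HasExp.prod (h := h) s (G := f) (B := fun i => PowerSeries.map V.subtype (B i))
    (fun i hi => hasXExp_iff.mp (hf i hi))
  refine h1.congr fun z => ?_
  rw [Finset.prod_apply]

end Fermat.Agent.S16
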