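import Fermat.Agent.S16.NS.Defs
import Fermat.Agent.S16.NS.PSeries
import Fermat.Agent.S16.MF.Exp

/-!
# S16 / NS / Unique: the `x`-expansion of a level-one form  (block NS, owner helper8)

If a level-one modular form `G` has an expansion `G z = ∑_m P_m x^m` in `x = exp (2 π i z / h)`
(`h ≥ 1`), then `P_m = 0` unless `h ∣ m`, and `P_{h j}` is the `j`-th `q`-coefficient of `G`
(from `HasExp.eq_expand` of the shared calculus `MF/Exp.lean`).
-/

set_option autoImplicit false

open UpperHalfPlane ModularForm CongruenceSubgroup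
open scoped MatrixGroups ModularForm Manifold

namespace Fermat.Agent.S16

theorem coeff_eq_of_hasXExp_levelOne {K : ℤ} (G : ModularForm 𝒮ℒ K) (V : Subring ℂ) (h : ℕ)
    (hh : 0 < h) (P : PowerSeries V) (hP : HasXExp V h (G : ℍ → ℂ) P) (m : ℕ) :
    ((PowerSeries.coeff m P : V) : ℂ) =
      if h ∣ m then (qExpansion 1 G).coeff (m / h) else 0 := by
  have h1 := HasExp.eq_expand (Nat.pos_iff_ne_zero.mp hh) (hasExp_levelOne G) (hasXExp_iff.mp hP)
  have h2 := congrArg (PowerSeries.coeff m) h1
  rw [PowerSeries.coeff_map, PowerSeries.coeff_expand] at h2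
  exact h2

end Fermat.Agent.S16
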