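import Fermat.Agent.S16.NS.Defs
import Fermat.Agent.S16.NS.PSeries
import Fermat.Agent.S16.NS.Unique
import Fermat.Agent.S16.NS.Cosets

/-!
# S16 / NS: the norm–Sturm principle  (owner: helper8)

`norm_sturm_of`: let `F ∈ M_k(Γ₀(N))`, `μ = psi N = [SL₂(ℤ) : Γ₀(N)]`, `4 ∣ μ k`, `V ⊆ ℂ` a subring
with a ring hom `red : V → κ` to a domain, `h ≥ 1`, `M` with `μ k < 12 M`.  Suppose
* `c₁ F = ∑ B₁_m x^m` (`x = exp (2 π i z / h)`), `B₁ ∈ V⟦x⟧`, `red B₁ ≠ 0`, and `red (B₁_m) = 0` for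
  all `m < h M` (i.e. the first `M` `q`-coefficients of `c₁ F` reduce to `0`);
* for every `γ ∈ SL₂(ℤ) ∖ Γ₀(N)` there are `c ≠ 0` and `B ∈ V⟦x⟧` with `c (F ∣[k] γ) = ∑ B_m x^m`
  and `red B ≠ 0`.
Then `False`.

Proof: the norm `∏_i cj F i` is a level-one form `e` of weight `μ k` (`exists_norm`); the product
`P` of the expansions is the `x`-expansion of `(∏ c_i) e` (`hasXExp_prod`); hence `P_m = 0` unless
`h ∣ m` and `P_{h j} = a_j ((∏ c_i) e)` (`coeff_eq_of_hasXExp_levelOne`).  The factor `B₁` makes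
`red P_m = 0` for `m < h M`, so the first `M` `q`-coefficients lie in `J = ker red`; by (LV1) all
do, so `red P = 0`, contradicting `red P = ∏ red B_i ≠ 0` in the domain `κ⟦x⟧`.
-/

set_option autoImplicit false

open UpperHalfPlane ModularForm CongruenceSubgroup
open scoped MatrixGroups ModularForm Manifold

namespace Fermat.Agent.S16

open Fermat.Agent.S23 (Gam psi cj i0 cj_i0)

namespace NSAux

/-- If the coefficients `A_m`, `m < n`, of `A` reduce to zero, so do those of `A * B`. -/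
theorem red_coeff_mul_eq_zero {V κ : Type*} [CommRing V] [CommRing κ] (red : V →+* κ)
    (A B : PowerSeries V) (n : ℕ) (hA : ∀ m < n, red (PowerSeries.coeff m A) = 0) :
    ∀ m < n, red (PowerSeries.coeff m (A * B)) = 0 := by
  intro m hm
  rw [PowerSeries.coeff_mul, map_sum]
  refine Finset.sum_eq_zero fun x hx => ?_
  have hx1 : x.1 ≤ m := by
    have h1 := Finset.HasAntidiagonal.mem_antidiagonal.mp hx
    omega
  rw [map_mul, hA x.1 (lt_of_le_of_lt hx1 hm), zero_mul]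

end NSAux

/-- The norm–Sturm principle, with (LV1) as a hypothesis. -/
theorem norm_sturm_of (LV1 : LevelOneSturm) {N : ℕ} [NeZero N] {k : ℤ}
    (F : ModularForm (Gam N) k)
    {κ : Type*} [CommRing κ] [IsDomain κ] (V : Subring ℂ) (red : V →+* κ)
    (h : ℕ) (hh : 0 < h) (M : ℕ)
    (hK : (4 : ℤ) ∣ (psi N : ℤ) * k) (hM : (psi N : ℤ) * k < 12 * (M : ℤ))
    (c₁ : ℂ) (hc₁ : c₁ ≠ 0) (B₁ : PowerSeries V)
    (hB₁ : HasXExp V h (c₁ • (F : ℍ → ℂ)) B₁)
    (hB₁0 : ∀ m < h * M, red (PowerSeries.coeff m B₁) = 0)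
    (hB₁1 : PowerSeries.map red B₁ ≠ 0)
    (H : ∀ γ : SL(2, ℤ), γ ∉ CongruenceSubgroup.Gamma0 N →
      ∃ (c : ℂ) (B : PowerSeries V), c ≠ 0 ∧
        HasXExp V h (c • ((F : ℍ → ℂ) ∣[k] γ)) B ∧ PowerSeries.map red B ≠ 0) :
    False := by
  classical
  -- expansion data for every conjugate
  have hdata : ∀ i : Fin (psi N), ∃ (c : ℂ) (B : PowerSeries V), c ≠ 0 ∧
      HasXExp V h (c • cj F i) B ∧ PowerSeries.map red B ≠ 0 ∧
      (i = i0 N → ∀ m < h * M, red (PowerSeries.coeff m B) = 0) := by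
    intro i
    by_cases hi : i = i0 N
    · refine ⟨c₁, B₁, hc₁, ?_, hB₁1, fun _ => hB₁0⟩
      rw [hi, cj_i0]
      exact hB₁
    · obtain ⟨γ, hγ, hcj⟩ := exists_slash_of_ne_i0 F hi
      obtain ⟨c, B, hc, hB, hBr⟩ := H γ hγ
      refine ⟨c, B, hc, ?_, hBr, fun h' => absurd h' hi⟩
      rw [hcj]
      exact hB
  choose c B hc hB hBr hB0 using hdata
  obtain ⟨e, he⟩ := exists_norm F
  -- the product of the expansions
  let C : ℂ := ∏ i, c i
  let P : PowerSeries V := ∏ i, B i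
  let G : ModularForm 𝒮ℒ ((psi N : ℤ) * k) := C • e
  have hG : ∀ z : ℍ, G z = ∏ i, (c i • cj F i) z := by
    intro z
    have h1 : G z = C * e z := rfl
    rw [h1, he z]
    simp only [Pi.smul_apply, smul_eq_mul, Finset.prod_mul_distrib]
    rfl
  have hP : HasXExp V h (G : ℍ → ℂ) P := by
    have h1 := hasXExp_prod (V := V) (h := h) Finset.univ (fun i => c i • cj F i) B
      (fun i _ => hB i)
    intro z
    rw [hG z]
    exact h1 z
  have hcoef := coeff_eq_of_hasXExp_levelOne G V h hh P hP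
  -- `red P ≠ 0`
  have hPr : PowerSeries.map red P ≠ 0 := by
    have h1 : PowerSeries.map red P = ∏ i, PowerSeries.map red (B i) := map_prod _ _ _
    rw [h1]
    exact Finset.prod_ne_zero_iff.mpr fun i _ => hBr i
  -- the low coefficients of `P` reduce to zero
  have hlow : ∀ m < h * M, red (PowerSeries.coeff m P) = 0 := by
    have h1 : P = B (i0 N) * ∏ i ∈ Finset.univ.erase (i0 N), B i :=
      (Finset.mul_prod_erase Finset.univ B (Finset.mem_univ (i0 N))).symm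
    rw [h1]
    exact NSAux.red_coeff_mul_eq_zero red _ _ _ (hB0 (i0 N) rfl)
  -- the kernel of `red` as an additive subgroup of `ℂ`
  let J : AddSubgroup ℂ := (RingHom.ker red).toAddSubgroup.map V.subtype.toAddMonoidHom
  have hmemJ : ∀ v : V, red v = 0 → ((v : V) : ℂ) ∈ J := fun v hv => ⟨v, hv, rfl⟩
  have hofJ : ∀ v : V, ((v : V) : ℂ) ∈ J → red v = 0 := by
    rintro v ⟨w, hw, hwv⟩
    have h1 : w = v := Subtype.ext hwv
    rw [← h1]
    exact hw
  have hqcoef : ∀ j : ℕ, (qExpansion 1 G).coeff j = ((PowerSeries.coeff (h * j) P : V) : ℂ) := by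
    intro j
    rw [hcoef (h * j), if_pos (dvd_mul_right h j), Nat.mul_div_cancel_left j hh]
  have hJ : ∀ i : ℕ, 12 * (i : ℤ) ≤ (psi N : ℤ) * k → (qExpansion 1 G).coeff i ∈ J := by
    intro i hi
    rw [hqcoef i]
    apply hmemJ
    apply hlow
    have h1 : (i : ℤ) < M := by omega
    have h2 : i < M := by exact_mod_cast h1
    exact Nat.mul_lt_mul_of_pos_left h2 hh
  have hall := LV1 _ G hK J hJ
  -- hence `red P = 0`
  apply hPr
  ext m
  rw [PowerSeries.coeff_map, map_zero]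
  by_cases hm : h ∣ m
  · obtain ⟨j, rfl⟩ := hm
    apply hofJ
    rw [← hqcoef j]
    exact hall j
  · have h1 := hcoef m
    rw [if_neg hm] at h1
    have h2 : PowerSeries.coeff m P = 0 := Subtype.ext h1
    rw [h2, map_zero]

/-- The norm–Sturm principle in "sequence" form (coefficient sequences `B : ℕ → V`, explicit
exponentials), with (LV1) as a hypothesis. -/
theorem norm_sturm_seq_of (LV1 : LevelOneSturm) {N : ℕ} [NeZero N] {k : ℤ}
    (F : ModularForm (Gam N) k)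
    {κ : Type*} [CommRing κ] [IsDomain κ] (V : Subring ℂ) (red : V →+* κ)
    (h : ℕ) (hh : 0 < h) (M : ℕ)
    (hK : (4 : ℤ) ∣ (psi N : ℤ) * k) (hM : (psi N : ℤ) * k < 12 * (M : ℤ))
    (hone : ∃ (c₁ : ℂ) (B : ℕ → V), c₁ ≠ 0 ∧ (∃ m, red (B m) ≠ 0) ∧
      (∀ m < h * M, red (B m) = 0) ∧
      ∀ z : ℍ, HasSum (fun m : ℕ => (B m : ℂ) *
        Complex.exp (2 * (Real.pi : ℂ) * Complex.I * ((m : ℂ) * (z : ℂ) / (h : ℂ)))) (c₁ * F z))
    (hexp : ∀ γ : SL(2, ℤ), γ ∉ CongruenceSubgroup.Gamma0 N →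
      ∃ (c : ℂ) (B : ℕ → V), c ≠ 0 ∧ (∃ m, red (B m) ≠ 0) ∧
      ∀ z : ℍ, HasSum (fun m : ℕ => (B m : ℂ) *
        Complex.exp (2 * (Real.pi : ℂ) * Complex.I * ((m : ℂ) * (z : ℂ) / (h : ℂ))))
        (c * ((F : ℍ → ℂ) ∣[k] γ) z)) :
    False := by
  -- conversion of a sequence expansion into `HasXExp`
  have key : ∀ (f : ℍ → ℂ) (B : ℕ → V),
      (∀ z : ℍ, HasSum (fun m : ℕ => (B m : ℂ) *
        Complex.exp (2 * (Real.pi : ℂ) * Complex.I * ((m : ℂ) * (z : ℂ) / (h : ℂ)))) (f z)) →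
      HasXExp V h f (PowerSeries.mk B) := by
    intro f B hf z
    have h1 := hf z
    convert h1 using 2 with m
    rw [PowerSeries.coeff_mk]
    congr 1
    rw [Function.Periodic.qParam, ← Complex.exp_nat_mul]
    congr 1
    push_cast
    ring
  have hne : ∀ B : ℕ → V, (∃ m, red (B m) ≠ 0) → PowerSeries.map red (PowerSeries.mk B) ≠ 0 := by
    rintro B ⟨m, hm⟩ h0
    apply hm
    have h1 := congrArg (PowerSeries.coeff m) h0
    rwa [PowerSeries.coeff_map, PowerSeries.coeff_mk, map_zero] at h1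
  obtain ⟨c₁, B₁, hc₁, hB₁1, hB₁0, hB₁⟩ := hone
  refine norm_sturm_of LV1 F V red h hh M hK hM c₁ hc₁ (PowerSeries.mk B₁)
    (key _ B₁ fun z => hB₁ z) ?_ (hne B₁ hB₁1) ?_
  · intro m hm
    rw [PowerSeries.coeff_mk]
    exact hB₁0 m hm
  · intro γ hγ
    obtain ⟨c, B, hc, hB1, hB⟩ := hexp γ hγ
    exact ⟨c, PowerSeries.mk B, hc, key _ B fun z => hB z, hne B hB1⟩

end Fermat.Agent.S16
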